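import Fermat.Agent.S16.H307.Lat
import Fermat.Agent.S16.H722.QuadData

/-!
# S16 / WP TH (helper307): the discriminant group `ℤ⁴ / A ℤ⁴` of a good lattice

* `latA A = A ℤ⁴`, `Disc A = ℤ⁴ / A ℤ⁴`, of cardinality `|det A| = p²`;
* `qD : Disc A → ZMod p`, `h ↦ hᵀBh / 2`, `bD : Disc A → Disc A → ZMod p`, `(h, k) ↦ hᵀBk`;
* `quadData hA : H722.QuadData p (Disc A)` (sign `s = 1`).
-/

set_option autoImplicit false

noncomputable section

namespace Fermat.Agent.S16.H307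

open Matrix

variable {p : ℕ} {A B : Matrix (Fin 4) (Fin 4) ℤ}

/-- The sublattice `A ℤ⁴` of `ℤ⁴`. -/
def latA (A : Matrix (Fin 4) (Fin 4) ℤ) : AddSubgroup (Fin 4 → ℤ) :=
  (Matrix.mulVecLin A).toAddMonoidHom.range

lemma mem_latA {A : Matrix (Fin 4) (Fin 4) ℤ} {y : Fin 4 → ℤ} :
    y ∈ latA A ↔ ∃ x, A *ᵥ x = y := by
  simp [latA, AddMonoidHom.mem_range]

/-- The discriminant group `ℤ⁴ / A ℤ⁴`. -/
abbrev Disc (A : Matrix (Fin 4) (Fin 4) ℤ) : Type := (Fin 4 → ℤ) ⧸ latA A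

/-- The projection `ℤ⁴ → ℤ⁴ / A ℤ⁴`. -/
def toD (A : Matrix (Fin 4) (Fin 4) ℤ) (y : Fin 4 → ℤ) : Disc A := QuotientAddGroup.mk y

lemma toD_eq_iff {A : Matrix (Fin 4) (Fin 4) ℤ} {y r : Fin 4 → ℤ} :
    toD A y = toD A r ↔ ∃ x, y = r + A *ᵥ x := by
  unfold toD
  rw [QuotientAddGroup.eq, mem_latA]
  constructor
  · rintro ⟨x, hx⟩
    refine ⟨-x, ?_⟩
    rw [Matrix.mulVec_neg, hx]; abel
  · rintro ⟨x, rfl⟩
    refine ⟨-x, ?_⟩
    rw [Matrix.mulVec_neg]; abel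

lemma toD_add_mulVec (A : Matrix (Fin 4) (Fin 4) ℤ) (c z : Fin 4 → ℤ) :
    toD A (c + A *ᵥ z) = toD A c :=
  toD_eq_iff.mpr ⟨z, rfl⟩

lemma toD_out (A : Matrix (Fin 4) (Fin 4) ℤ) (h : Disc A) : toD A h.out = h :=
  QuotientAddGroup.out_eq' h

lemma exists_out_eq (A : Matrix (Fin 4) (Fin 4) ℤ) (y : Fin 4 → ℤ) :
    ∃ u, (toD A y).out = y + A *ᵥ u :=
  toD_eq_iff.mp (toD_out A (toD A y))

lemma toD_surjective (A : Matrix (Fin 4) (Fin 4) ℤ) : Function.Surjective (toD A) :=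
  fun h => ⟨h.out, toD_out A h⟩

lemma toD_zero (A : Matrix (Fin 4) (Fin 4) ℤ) : toD A 0 = 0 := rfl

lemma toD_add (A : Matrix (Fin 4) (Fin 4) ℤ) (y w : Fin 4 → ℤ) :
    toD A (y + w) = toD A y + toD A w := rfl

lemma toD_zsmul (A : Matrix (Fin 4) (Fin 4) ℤ) (n : ℤ) (y : Fin 4 → ℤ) :
    toD A (n • y) = n • toD A y := rfl

lemma toD_eq_zero_iff {A : Matrix (Fin 4) (Fin 4) ℤ} {y : Fin 4 → ℤ} :
    toD A y = 0 ↔ ∃ x, A *ᵥ x = y := by
  rw [← toD_zero, toD_eq_iff]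
  constructor
  · rintro ⟨x, hx⟩; exact ⟨x, by rw [hx, zero_add]⟩
  · rintro ⟨x, hx⟩; exact ⟨x, by rw [hx, zero_add]⟩

/-! ### cardinality -/

theorem index_latA [Fact p.Prime] (hA : IsGoodLattice p A B) : (latA A).index = p ^ 2 := by
  classical
  let e : (Fin 4 → ℤ) ≃+ latA A :=
    AddMonoidHom.ofInjective (f := (Matrix.mulVecLin A).toAddMonoidHom) (mulVec_injective hA)
  let bN : Module.Basis (Fin 4) ℤ (latA A) := (Pi.basisFun ℤ (Fin 4)).map e.toIntLinearEquiv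
  rw [AddSubgroup.index_eq_natAbs_det (Pi.basisFun ℤ (Fin 4)) (latA A) bN]
  have h1 : (Pi.basisFun ℤ (Fin 4)).det (fun i => ((bN i : latA A) : Fin 4 → ℤ)) = A.det := by
    rw [Module.Basis.det_apply]
    congr 1
    ext i j
    rw [Module.Basis.toMatrix_apply, Pi.basisFun_repr]
    have key : ((bN j : latA A) : Fin 4 → ℤ) = A *ᵥ Pi.single j 1 := by
      simp only [bN, Module.Basis.map_apply, Pi.basisFun_apply]
      rfl
    rw [key, Matrix.mulVec_single_one]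
    rfl
  rw [h1, hA.det_eq, Int.natAbs_pow, Int.natAbs_natCast]

lemma finiteIndex_latA [Fact p.Prime] (hA : IsGoodLattice p A B) : (latA A).FiniteIndex := by
  refine ⟨?_⟩
  rw [index_latA hA]
  exact pow_ne_zero _ (Fact.out : p.Prime).ne_zero

/-- `Disc A` is finite. -/
@[instance_reducible] def discFintype [Fact p.Prime] (hA : IsGoodLattice p A B) : Fintype (Disc A) :=
  haveI := finiteIndex_latA hA
  Fintype.ofFinite _

theorem card_disc [Fact p.Prime] (hA : IsGoodLattice p A B) :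
    @Fintype.card (Disc A) (discFintype hA) = p ^ 2 := by
  let _ := discFintype hA
  rw [← Nat.card_eq_fintype_card, ← AddSubgroup.index_eq_card, index_latA hA]

/-! ### the quadratic form and the bilinear form mod `p` -/

/-- `y ↦ yᵀBy / 2 mod p` -/
def qZ (p : ℕ) (B : Matrix (Fin 4) (Fin 4) ℤ) (y : Fin 4 → ℤ) : ZMod p :=
  ((qf B y / 2 : ℤ) : ZMod p)

/-- `(y, w) ↦ yᵀBw mod p` -/
def bZ (p : ℕ) (B : Matrix (Fin 4) (Fin 4) ℤ) (y w : Fin 4 → ℤ) : ZMod p :=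
  ((y ⬝ᵥ (B *ᵥ w) : ℤ) : ZMod p)

lemma two_mul_half [Fact p.Prime] (hA : IsGoodLattice p A B) (y : Fin 4 → ℤ) :
    2 * (qf B y / 2) = qf B y :=
  Int.mul_ediv_cancel' (even_iff_two_dvd.mp (even_qf_B hA y))

lemma two_mul_half_A [Fact p.Prime] (hA : IsGoodLattice p A B) (x : Fin 4 → ℤ) :
    2 * (qf A x / 2) = qf A x :=
  Int.mul_ediv_cancel' (even_iff_two_dvd.mp (even_qf_A hA x))

lemma qZ_add_mulVec [Fact p.Prime] (hA : IsGoodLattice p A B) (y u : Fin 4 → ℤ) :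
    qZ p B (y + A *ᵥ u) = qZ p B y := by
  have h1 := qf_B_add_mulVec hA y u
  have h2 := two_mul_half hA (y + A *ᵥ u)
  have h3 := two_mul_half hA y
  have h4 := two_mul_half_A hA u
  have h5 : qf B (y + A *ᵥ u) / 2 = qf B y / 2 + (p : ℤ) * (u ⬝ᵥ y + qf A u / 2) := by
    have : 2 * (qf B (y + A *ᵥ u) / 2) =
        2 * (qf B y / 2 + (p : ℤ) * (u ⬝ᵥ y + qf A u / 2)) := by
      rw [h2, h1, mul_add, h3]
      linear_combination (-(p : ℤ)) * h4
    exact mul_left_cancel₀ two_ne_zero this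
  unfold qZ
  rw [h5]
  push_cast
  simp

lemma qZ_add [Fact p.Prime] (hA : IsGoodLattice p A B) (y w : Fin 4 → ℤ) :
    qZ p B (y + w) = qZ p B y + qZ p B w + bZ p B y w := by
  have h1 := qf_B_add hA y w
  have h2 := two_mul_half hA (y + w)
  have h3 := two_mul_half hA y
  have h4 := two_mul_half hA w
  have h5 : qf B (y + w) / 2 = qf B y / 2 + qf B w / 2 + y ⬝ᵥ (B *ᵥ w) := by
    have : 2 * (qf B (y + w) / 2) = 2 * (qf B y / 2 + qf B w / 2 + y ⬝ᵥ (B *ᵥ w)) := by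
      rw [h2, h1]
      linear_combination (-1 : ℤ) * h3 - h4
    exact mul_left_cancel₀ two_ne_zero this
  unfold qZ bZ
  rw [h5]
  push_cast
  rfl

lemma qZ_zsmul [Fact p.Prime] (hA : IsGoodLattice p A B) (n : ℤ) (y : Fin 4 → ℤ) :
    qZ p B (n • y) = (n : ZMod p) ^ 2 * qZ p B y := by
  have h1 := qf_smul B n y
  have h2 := two_mul_half hA (n • y)
  have h3 := two_mul_half hA y
  have h5 : qf B (n • y) / 2 = n ^ 2 * (qf B y / 2) := by
    have : 2 * (qf B (n • y) / 2) = 2 * (n ^ 2 * (qf B y / 2)) := by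
      rw [h2, h1]
      linear_combination (-(n ^ 2 : ℤ)) * h3
    exact mul_left_cancel₀ two_ne_zero this
  unfold qZ
  rw [h5]
  push_cast
  rfl

lemma bZ_add_mulVec_left [Fact p.Prime] (hA : IsGoodLattice p A B) (y u w : Fin 4 → ℤ) :
    bZ p B (y + A *ᵥ u) w = bZ p B y w := by
  unfold bZ
  rw [dot_B_add_mulVec_left hA]
  push_cast
  simp

lemma bZ_add_mulVec_right [Fact p.Prime] (hA : IsGoodLattice p A B) (y w u : Fin 4 → ℤ) :
    bZ p B y (w + A *ᵥ u) = bZ p B y w := by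
  unfold bZ
  rw [dot_B_add_mulVec_right hA]
  push_cast
  simp

lemma bZ_add_left (y y' w : Fin 4 → ℤ) :
    bZ p B (y + y') w = bZ p B y w + bZ p B y' w := by
  unfold bZ
  rw [add_dotProduct]
  push_cast
  rfl

/-- `q` on the discriminant group. -/
def qD (p : ℕ) (A B : Matrix (Fin 4) (Fin 4) ℤ) (h : Disc A) : ZMod p := qZ p B h.out

/-- `b` on the discriminant group. -/
def bD (p : ℕ) (A B : Matrix (Fin 4) (Fin 4) ℤ) (h k : Disc A) : ZMod p := bZ p B h.out k.out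

lemma qD_toD [Fact p.Prime] (hA : IsGoodLattice p A B) (y : Fin 4 → ℤ) :
    qD p A B (toD A y) = qZ p B y := by
  obtain ⟨u, hu⟩ := exists_out_eq A y
  unfold qD
  rw [hu, qZ_add_mulVec hA]

lemma bD_toD [Fact p.Prime] (hA : IsGoodLattice p A B) (y w : Fin 4 → ℤ) :
    bD p A B (toD A y) (toD A w) = bZ p B y w := by
  obtain ⟨u, hu⟩ := exists_out_eq A y
  obtain ⟨v, hv⟩ := exists_out_eq A w
  unfold bD
  rw [hu, hv, bZ_add_mulVec_left hA, bZ_add_mulVec_right hA]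

/-- The finite quadratic module `(ℤ⁴ / A ℤ⁴, hᵀBh / 2 mod p)`. -/
def quadData [Fact p.Prime] (hA : IsGoodLattice p A B) : H722.QuadData p (Disc A) where
  q := qD p A B
  b := bD p A B
  s := 1
  s_mul_s := one_mul 1
  q_add := by
    intro h k
    obtain ⟨y, rfl⟩ := toD_surjective A h
    obtain ⟨w, rfl⟩ := toD_surjective A k
    rw [← toD_add, qD_toD hA, qD_toD hA, qD_toD hA, bD_toD hA, qZ_add hA]
  q_smul := by
    intro n h
    obtain ⟨y, rfl⟩ := toD_surjective A h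
    rw [← toD_zsmul, qD_toD hA, qD_toD hA, qZ_zsmul hA]
  b_add_left := by
    intro h h' k
    obtain ⟨y, rfl⟩ := toD_surjective A h
    obtain ⟨y', rfl⟩ := toD_surjective A h'
    obtain ⟨w, rfl⟩ := toD_surjective A k
    rw [← toD_add, bD_toD hA, bD_toD hA, bD_toD hA, bZ_add_left]
  b_nondeg := by
    intro h hh
    obtain ⟨y, rfl⟩ := toD_surjective A h
    by_contra hcon
    rw [not_exists] at hcon
    simp only [not_not] at hcon
    apply hh
    rw [toD_eq_zero_iff]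
    apply exists_mulVec_eq_of_dvd hA
    intro k
    have := hcon (toD A k)
    rw [bD_toD hA] at this
    unfold bZ at this
    rw [ZMod.intCast_zmod_eq_zero_iff_dvd] at this
    rwa [dot_B_comm hA]

@[simp] lemma quadData_q [Fact p.Prime] (hA : IsGoodLattice p A B) :
    (quadData hA).q = qD p A B := rfl

@[simp] lemma quadData_b [Fact p.Prime] (hA : IsGoodLattice p A B) :
    (quadData hA).b = bD p A B := rfl

@[simp] lemma quadData_s [Fact p.Prime] (hA : IsGoodLattice p A B) :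
    (quadData hA).s = 1 := rfl

end Fermat.Agent.S16.H307
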