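import Fermat.Agent.S16.Interface

/-!
# S16 / WP TH (helper307): integral algebra of a good lattice pair `(A, B)`, `A B = p`

Pure matrix algebra over `ℤ` for `IsGoodLattice p A B`:
`B A = p`, `B` symmetric, `xᵀAx` and `yᵀBy` even, behaviour of `yᵀBy`, `wᵀBy` under
`y ↦ y + A u`, nondegeneracy of `(h, k) ↦ hᵀBk mod p` on `ℤ⁴ / A ℤ⁴`.
-/

set_option autoImplicit false

namespace Fermat.Agent.S16.H307

open Matrix

variable {p : ℕ} {A B : Matrix (Fin 4) (Fin 4) ℤ}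

lemma det_ne_zero_of_good [Fact p.Prime] (hA : IsGoodLattice p A B) : A.det ≠ 0 := by
  rw [hA.det_eq]
  exact pow_ne_zero _ (by exact_mod_cast (Fact.out : p.Prime).ne_zero)

lemma mul_eq' [Fact p.Prime] (hA : IsGoodLattice p A B) :
    B * A = (p : ℤ) • (1 : Matrix (Fin 4) (Fin 4) ℤ) := by
  have h1 : A.adjugate * A = A.det • (1 : Matrix (Fin 4) (Fin 4) ℤ) := Matrix.adjugate_mul A
  have h2 : A.det • (B * A) = A.det • ((p : ℤ) • (1 : Matrix (Fin 4) (Fin 4) ℤ)) := by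
    calc A.det • (B * A) = (A.det • (1 : Matrix (Fin 4) (Fin 4) ℤ)) * (B * A) := by
          rw [Matrix.smul_mul, Matrix.one_mul]
      _ = (A.adjugate * A) * (B * A) := by rw [h1]
      _ = A.adjugate * ((A * B) * A) := by simp only [Matrix.mul_assoc]
      _ = A.adjugate * (((p : ℤ) • (1 : Matrix (Fin 4) (Fin 4) ℤ)) * A) := by rw [hA.mul_eq]
      _ = (p : ℤ) • (A.adjugate * A) := by
          rw [Matrix.smul_mul, Matrix.one_mul, Matrix.mul_smul]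
      _ = A.det • ((p : ℤ) • (1 : Matrix (Fin 4) (Fin 4) ℤ)) := by
          rw [h1, smul_comm]
  exact smul_right_injective _ (det_ne_zero_of_good hA) h2

lemma symm_B [Fact p.Prime] (hA : IsGoodLattice p A B) : B.IsSymm := by
  have hp : (p : ℤ) ≠ 0 := by exact_mod_cast (Fact.out : p.Prime).ne_zero
  have h1 : Bᵀ * A = (p : ℤ) • (1 : Matrix (Fin 4) (Fin 4) ℤ) := by
    have := congrArg Matrix.transpose hA.mul_eq
    rw [Matrix.transpose_mul, hA.symm.eq, Matrix.transpose_smul, Matrix.transpose_one] at this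
    exact this
  have h2 : (p : ℤ) • Bᵀ = (p : ℤ) • B := by
    calc (p : ℤ) • Bᵀ = Bᵀ * ((p : ℤ) • (1 : Matrix (Fin 4) (Fin 4) ℤ)) := by
          rw [Matrix.mul_smul, Matrix.mul_one]
      _ = Bᵀ * (A * B) := by rw [hA.mul_eq]
      _ = (Bᵀ * A) * B := by rw [Matrix.mul_assoc]
      _ = (p : ℤ) • B := by rw [h1, Matrix.smul_mul, Matrix.one_mul]
  exact smul_right_injective _ hp h2

lemma mulVec_A_B [Fact p.Prime] (hA : IsGoodLattice p A B) (y : Fin 4 → ℤ) :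
    A *ᵥ (B *ᵥ y) = (p : ℤ) • y := by
  rw [Matrix.mulVec_mulVec, hA.mul_eq, Matrix.smul_mulVec, Matrix.one_mulVec]

lemma mulVec_B_A [Fact p.Prime] (hA : IsGoodLattice p A B) (u : Fin 4 → ℤ) :
    B *ᵥ (A *ᵥ u) = (p : ℤ) • u := by
  rw [Matrix.mulVec_mulVec, mul_eq' hA, Matrix.smul_mulVec, Matrix.one_mulVec]

lemma dot_mulVec_of_symm {M : Matrix (Fin 4) (Fin 4) ℤ} (hM : M.IsSymm) (u w : Fin 4 → ℤ) :
    (M *ᵥ u) ⬝ᵥ w = u ⬝ᵥ (M *ᵥ w) := by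
  rw [dotProduct_comm, Matrix.dotProduct_mulVec, ← Matrix.mulVec_transpose, hM.eq,
    dotProduct_comm]

lemma mulVec_injective [Fact p.Prime] (hA : IsGoodLattice p A B) :
    Function.Injective (fun u : Fin 4 → ℤ => A *ᵥ u) := by
  have hp : (p : ℤ) ≠ 0 := by exact_mod_cast (Fact.out : p.Prime).ne_zero
  intro u v h
  have h' : B *ᵥ (A *ᵥ u) = B *ᵥ (A *ᵥ v) := congrArg _ h
  rw [mulVec_B_A hA, mulVec_B_A hA] at h'
  exact smul_right_injective _ hp h'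

/-- A symmetric integer matrix with even diagonal has even quadratic form. -/
lemma even_qf_of_symm {M : Matrix (Fin 4) (Fin 4) ℤ} (hs : M.IsSymm) (he : ∀ i, Even (M i i))
    (x : Fin 4 → ℤ) : Even (qf M x) := by
  obtain ⟨a0, h0⟩ := he 0
  obtain ⟨a1, h1⟩ := he 1
  obtain ⟨a2, h2⟩ := he 2
  obtain ⟨a3, h3⟩ := he 3
  have s10 : M 1 0 = M 0 1 := hs.apply 0 1
  have s20 : M 2 0 = M 0 2 := hs.apply 0 2
  have s30 : M 3 0 = M 0 3 := hs.apply 0 3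
  have s21 : M 2 1 = M 1 2 := hs.apply 1 2
  have s31 : M 3 1 = M 1 3 := hs.apply 1 3
  have s32 : M 3 2 = M 2 3 := hs.apply 2 3
  refine ⟨a0 * x 0 ^ 2 + a1 * x 1 ^ 2 + a2 * x 2 ^ 2 + a3 * x 3 ^ 2 + M 0 1 * x 0 * x 1
    + M 0 2 * x 0 * x 2 + M 0 3 * x 0 * x 3 + M 1 2 * x 1 * x 2 + M 1 3 * x 1 * x 3
    + M 2 3 * x 2 * x 3, ?_⟩
  simp only [qf, dotProduct, Matrix.mulVec, Fin.sum_univ_four]
  rw [h0, h1, h2, h3, s10, s20, s30, s21, s31, s32]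
  ring

lemma even_qf_A [Fact p.Prime] (hA : IsGoodLattice p A B) (x : Fin 4 → ℤ) : Even (qf A x) :=
  even_qf_of_symm hA.symm hA.even x

lemma even_qf_B [Fact p.Prime] (hA : IsGoodLattice p A B) (y : Fin 4 → ℤ) : Even (qf B y) :=
  even_qf_of_symm (symm_B hA) hA.even' y

/-- `(y + A u)ᵀ B (y + A u) = yᵀBy + 2 p uᵀy + p uᵀAu`. -/
lemma qf_B_add_mulVec [Fact p.Prime] (hA : IsGoodLattice p A B) (y u : Fin 4 → ℤ) :
    qf B (y + A *ᵥ u) = qf B y + 2 * (p : ℤ) * (u ⬝ᵥ y) + (p : ℤ) * qf A u := by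
  unfold qf
  rw [Matrix.mulVec_add, mulVec_B_A hA, add_dotProduct, dotProduct_add, dotProduct_add,
    dot_mulVec_of_symm hA.symm, mulVec_A_B hA, dotProduct_smul, dotProduct_smul,
    dotProduct_smul, dot_mulVec_of_symm hA.symm, dotProduct_comm y u]
  simp only [smul_eq_mul]
  ring

/-- `(w + A u)ᵀ B y = wᵀBy + p uᵀy`. -/
lemma dot_B_add_mulVec_left [Fact p.Prime] (hA : IsGoodLattice p A B) (w u y : Fin 4 → ℤ) :
    (w + A *ᵥ u) ⬝ᵥ (B *ᵥ y) = w ⬝ᵥ (B *ᵥ y) + (p : ℤ) * (u ⬝ᵥ y) := by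
  rw [add_dotProduct, dot_mulVec_of_symm hA.symm, mulVec_A_B hA, dotProduct_smul]
  simp only [smul_eq_mul]

/-- `wᵀ B (y + A u) = wᵀBy + p wᵀu`. -/
lemma dot_B_add_mulVec_right [Fact p.Prime] (hA : IsGoodLattice p A B) (w y u : Fin 4 → ℤ) :
    w ⬝ᵥ (B *ᵥ (y + A *ᵥ u)) = w ⬝ᵥ (B *ᵥ y) + (p : ℤ) * (w ⬝ᵥ u) := by
  rw [Matrix.mulVec_add, mulVec_B_A hA, dotProduct_add, dotProduct_smul]
  simp only [smul_eq_mul]

lemma dot_B_comm [Fact p.Prime] (hA : IsGoodLattice p A B) (w y : Fin 4 → ℤ) :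
    w ⬝ᵥ (B *ᵥ y) = y ⬝ᵥ (B *ᵥ w) := by
  rw [← dot_mulVec_of_symm (symm_B hA), dotProduct_comm]

/-- `(y + w)ᵀ B (y + w) = yᵀBy + wᵀBw + 2 yᵀBw`. -/
lemma qf_B_add [Fact p.Prime] (hA : IsGoodLattice p A B) (y w : Fin 4 → ℤ) :
    qf B (y + w) = qf B y + qf B w + 2 * (y ⬝ᵥ (B *ᵥ w)) := by
  unfold qf
  rw [Matrix.mulVec_add, add_dotProduct, dotProduct_add, dotProduct_add, dot_B_comm hA w y]
  ring

lemma qf_smul (M : Matrix (Fin 4) (Fin 4) ℤ) (n : ℤ) (y : Fin 4 → ℤ) :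
    qf M (n • y) = n ^ 2 * qf M y := by
  unfold qf
  rw [Matrix.mulVec_smul, smul_dotProduct, dotProduct_smul]
  simp only [smul_eq_mul]
  ring

/-- `p² (xᵀAx + 2 xᵀy) + p yᵀBy = (p x + B y)ᵀ A (p x + B y)`. -/
lemma qf_A_shift [Fact p.Prime] (hA : IsGoodLattice p A B) (x y : Fin 4 → ℤ) :
    qf A ((p : ℤ) • x + B *ᵥ y) =
      (p : ℤ) ^ 2 * (qf A x + 2 * (x ⬝ᵥ y)) + (p : ℤ) * qf B y := by
  unfold qf
  rw [Matrix.mulVec_add, mulVec_A_B hA, Matrix.mulVec_smul, add_dotProduct, dotProduct_add,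
    dotProduct_add, smul_dotProduct, smul_dotProduct, dotProduct_smul, dotProduct_smul,
    dotProduct_smul, dotProduct_comm (B *ᵥ y) (A *ᵥ x), dot_mulVec_of_symm hA.symm x,
    mulVec_A_B hA, dotProduct_smul]
  simp only [dotProduct_smul, smul_eq_mul]
  rw [dotProduct_comm (B *ᵥ y) y]
  ring

/-- Nondegeneracy: if `p ∣ kᵀBh` for all `k` then `h ∈ A ℤ⁴`. -/
lemma exists_mulVec_eq_of_dvd [Fact p.Prime] (hA : IsGoodLattice p A B) (h : Fin 4 → ℤ)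
    (hh : ∀ k : Fin 4 → ℤ, (p : ℤ) ∣ k ⬝ᵥ (B *ᵥ h)) : ∃ v : Fin 4 → ℤ, A *ᵥ v = h := by
  have hp : (p : ℤ) ≠ 0 := by exact_mod_cast (Fact.out : p.Prime).ne_zero
  have h1 : ∀ i : Fin 4, (p : ℤ) ∣ (B *ᵥ h) i := by
    intro i
    have := hh (Pi.single i 1)
    rwa [single_dotProduct, one_mul] at this
  choose v hv using h1
  refine ⟨v, ?_⟩
  have h2 : B *ᵥ h = (p : ℤ) • v := by
    funext i
    rw [hv i]
    simp
  have h3 : (p : ℤ) • (A *ᵥ v) = (p : ℤ) • h := by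
    rw [← Matrix.mulVec_smul, ← h2, mulVec_A_B hA]
  exact smul_right_injective _ hp h3

end Fermat.Agent.S16.H307
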