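import Fermat.Agent.S16.H307.Theta
import Fermat.Agent.S16.H722.Weil

/-!
# S16 / WP TH (helper307): `theta_mem_MF` in exact skeleton shape

From `IsGoodLattice p A B` and the inversion formula `ThetaInv p A B` we build the
`H722.WeilSystem` on the discriminant group `ℤ⁴ / A ℤ⁴` with `Θ h = thetaChar p A B h.out`
and conclude `thetaFun A ∈ MF (Gamma0 p) 2`
(= `Skel.theta_mem_MF` of `origin/helper556:Fermat/Agent/S16/Skeleton.lean`).
-/

set_option autoImplicit false

noncomputable section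

namespace Fermat.Agent.S16.H307

open Complex Real Matrix UpperHalfPlane ModularForm CongruenceSubgroup MatrixGroups
open Fermat.Agent.S20 (MF SF)
open scoped Manifold

variable {p : ℕ} {A B : Matrix (Fin 4) (Fin 4) ℤ}

/-! ### coset invariance -/

lemma qf_A_add (hA : IsGoodLattice p A B) (x u : Fin 4 → ℤ) :
    qf A (x + u) = qf A x + qf A u + 2 * (x ⬝ᵥ (A *ᵥ u)) := by
  unfold qf
  rw [Matrix.mulVec_add, add_dotProduct, dotProduct_add, dotProduct_add,
    ← dot_mulVec_of_symm hA.symm u x, dotProduct_comm (A *ᵥ u) x]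
  ring

lemma cR_add_mulVec [Fact p.Prime] (hA : IsGoodLattice p A B) (y u x : Fin 4 → ℤ) :
    cR p A B (y + A *ᵥ u) x = cR p A B y (x + u) := by
  have hp : (p : ℝ) ≠ 0 := by exact_mod_cast (Fact.out : p.Prime).ne_zero
  unfold cR
  rw [qf_B_add_mulVec hA, qf_A_add hA, dotProduct_add, add_dotProduct]
  push_cast
  field_simp
  ring

lemma thetaChar_add_mulVec [Fact p.Prime] (hA : IsGoodLattice p A B) (y u : Fin 4 → ℤ) :
    thetaChar p A B (y + A *ᵥ u) = thetaChar p A B y := by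
  funext z
  rw [thetaChar_eq_tsum, thetaChar_eq_tsum]
  have h1 : ∀ x, tm p A B (y + A *ᵥ u) x (z : ℂ) = tm p A B y (x + u) (z : ℂ) := by
    intro x
    unfold tm
    rw [cR_add_mulVec hA]
  simp_rw [h1]
  exact (Equiv.addRight u).tsum_eq (fun x => tm p A B y x (z : ℂ))

lemma thetaChar_out [Fact p.Prime] (hA : IsGoodLattice p A B) (y : Fin 4 → ℤ) :
    thetaChar p A B (toD A y).out = thetaChar p A B y := by
  obtain ⟨u, hu⟩ := exists_out_eq A y
  rw [hu, thetaChar_add_mulVec hA]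

/-! ### the `T`-law -/

lemma slash_T_apply (f : ℍ → ℂ) (k : ℤ) (z : ℍ) :
    (f ∣[k] ModularGroup.T) z = f ((1 : ℝ) +ᵥ z) := by
  rw [SL_slash_apply, modular_T_smul]
  have : denom (ModularGroup.T : SL(2, ℤ)) z = 1 := by
    rw [ModularGroup.denom_apply]
    simp [ModularGroup.T]
  rw [this]
  simp

lemma cexp_two_pi_int (n : ℤ) : cexp (2 * π * Complex.I * (n : ℂ)) = 1 := by
  have := Complex.exp_int_mul_two_pi_mul_I n
  rw [← this]
  congr 1
  ring

lemma stdAddChar_intCast [Fact p.Prime] (j : ℤ) :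
    (ZMod.stdAddChar (N := p) (j : ZMod p) : ℂ) = cexp (2 * π * Complex.I * (j : ℂ) / p) :=
  ZMod.stdAddChar_coe j

lemma tm_add_one [Fact p.Prime] (hA : IsGoodLattice p A B) (y x : Fin 4 → ℤ) (τ : ℂ) :
    tm p A B y x (1 + τ) = ZMod.stdAddChar (N := p) (qZ p B y) * tm p A B y x τ := by
  have hp : (p : ℂ) ≠ 0 := by exact_mod_cast (Fact.out : p.Prime).ne_zero
  have hB := two_mul_half hA y
  have hAx := two_mul_half_A hA x
  have hB' : (2 : ℂ) * ((qf B y / 2 : ℤ) : ℂ) = ((qf B y : ℤ) : ℂ) := by exact_mod_cast hB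
  have hA' : (2 : ℂ) * ((qf A x / 2 : ℤ) : ℂ) = ((qf A x : ℤ) : ℂ) := by exact_mod_cast hAx
  unfold tm qZ
  rw [stdAddChar_intCast, ← Complex.exp_add, Complex.exp_eq_exp_iff_exists_int]
  refine ⟨qf A x / 2 + x ⬝ᵥ y, ?_⟩
  unfold cR
  push_cast
  rw [← hB', ← hA']
  field_simp
  ring

theorem thetaChar_slash_T [Fact p.Prime] (hA : IsGoodLattice p A B) (y : Fin 4 → ℤ) :
    thetaChar p A B y ∣[(2 : ℤ)] ModularGroup.T =
      (ZMod.stdAddChar (N := p) (qZ p B y) : ℂ) • thetaChar p A B y := by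
  funext z
  rw [slash_T_apply, Pi.smul_apply, smul_eq_mul, thetaChar_eq_tsum, thetaChar_eq_tsum,
    ← tsum_mul_left]
  refine tsum_congr fun x => ?_
  rw [UpperHalfPlane.coe_vadd]
  push_cast
  exact tm_add_one hA y x z

/-! ### the `S`-law -/

/-- The general term of the dual series in `ThetaInv`. -/
def dualTm (p : ℕ) (B : Matrix (Fin 4) (Fin 4) ℤ) (y : Fin 4 → ℤ) (τ : ℂ) (w : Fin 4 → ℤ) : ℂ :=
  cexp (π * Complex.I * τ * ((qf B w : ℂ) / p) +
    2 * π * Complex.I * (((w ⬝ᵥ B.mulVec y : ℤ) : ℂ) / p))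

lemma dualTm_coset [Fact p.Prime] (hA : IsGoodLattice p A B) (y k x : Fin 4 → ℤ) (τ : ℂ) :
    dualTm p B y τ (k + A *ᵥ x) =
      ZMod.stdAddChar (N := p) (bZ p B y k) * tm p A B k x τ := by
  have hp : (p : ℂ) ≠ 0 := by exact_mod_cast (Fact.out : p.Prime).ne_zero
  unfold dualTm tm bZ
  rw [stdAddChar_intCast, ← Complex.exp_add, Complex.exp_eq_exp_iff_exists_int]
  refine ⟨x ⬝ᵥ y, ?_⟩
  rw [qf_B_add_mulVec hA, dot_B_add_mulVec_left hA, dot_B_comm hA k y]
  unfold cR
  push_cast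
  field_simp
  ring

lemma B_mulVec_injective [Fact p.Prime] (hA : IsGoodLattice p A B) :
    Function.Injective (fun w : Fin 4 → ℤ => B *ᵥ w) := by
  have hp : (p : ℤ) ≠ 0 := by exact_mod_cast (Fact.out : p.Prime).ne_zero
  intro u v h
  have h' : A *ᵥ (B *ᵥ u) = A *ᵥ (B *ᵥ v) := congrArg _ h
  rw [mulVec_A_B hA, mulVec_A_B hA] at h'
  exact smul_right_injective _ hp h'

lemma norm_dualTm [Fact p.Prime] (hA : IsGoodLattice p A B) (y w : Fin 4 → ℤ) (τ : ℂ) :
    ‖dualTm p B y τ w‖ = rexp (-(π * τ.im * cR p A B w 0)) := by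
  have h := dualTm_coset hA y w 0 τ
  rw [Matrix.mulVec_zero, add_zero] at h
  rw [h, norm_mul, norm_tm]
  have : ‖(ZMod.stdAddChar (N := p) (bZ p B y w) : ℂ)‖ = 1 := by
    rw [ZMod.stdAddChar_apply]
    exact Circle.norm_coe _
  rw [this, one_mul]

lemma summable_dualTm [Fact p.Prime] (hA : IsGoodLattice p A B) (y : Fin 4 → ℤ) {τ : ℂ}
    (hτ : 0 < τ.im) : Summable (dualTm p B y τ) := by
  refine Summable.of_norm ?_
  simp_rw [norm_dualTm hA]
  have hp : (0 : ℝ) < p := by exact_mod_cast (Fact.out : p.Prime).pos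
  have hc : 0 < π * τ.im / (p : ℝ) ^ 2 := by positivity
  have h1 := (H756.summable_exp_neg_qf (M := H756.mR A) hA.posDef hc).comp_injective
    (B_mulVec_injective hA)
  refine h1.congr fun w => ?_
  simp only [Function.comp_apply]
  rw [cR_eq hA, qf_A_eq, smul_zero, zero_add]
  congr 1
  field_simp

/-- the bijection `x ↦ k + A x` from `ℤ⁴` onto the fibre of `toD A` over the class of `k`. -/
def fibEquiv [Fact p.Prime] (hA : IsGoodLattice p A B) (c : Disc A) :
    (Fin 4 → ℤ) ≃ ↥(toD A ⁻¹' {c}) :=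
  Equiv.ofBijective
    (fun x => ⟨c.out + A *ᵥ x, by
      show toD A (c.out + A *ᵥ x) = c
      rw [toD_add_mulVec, toD_out]⟩) <| by
    constructor
    · intro x x' hxx'
      have h1 : c.out + A *ᵥ x = c.out + A *ᵥ x' := congrArg Subtype.val hxx'
      exact mulVec_injective hA (add_left_cancel h1)
    · rintro ⟨w, hw⟩
      have hw' : toD A w = toD A c.out := by
        rw [toD_out]; exact hw
      obtain ⟨x, hx⟩ := toD_eq_iff.mp hw'
      exact ⟨x, Subtype.ext hx.symm⟩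

lemma tsum_fib [Fact p.Prime] (hA : IsGoodLattice p A B) (F : (Fin 4 → ℤ) → ℂ) (c : Disc A) :
    ∑' w : ↥(toD A ⁻¹' {c}), F w = ∑' x : Fin 4 → ℤ, F (c.out + A *ᵥ x) := by
  rw [← (fibEquiv hA c).tsum_eq]
  rfl

/-- Regrouping the dual series over the cosets of `A ℤ⁴`. -/
lemma tsum_dualTm [Fact p.Prime] (hA : IsGoodLattice p A B) (y : Fin 4 → ℤ) (z : ℍ) :
    letI := discFintype hA
    ∑' w : Fin 4 → ℤ, dualTm p B y (z : ℂ) w =
      ∑ c : Disc A, (ZMod.stdAddChar (N := p) (bZ p B y c.out) : ℂ) * thetaChar p A B c.out z := by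
  let _ := discFintype hA
  have hs := summable_dualTm hA y z.im_pos
  have h1 := hs.hasSum.tsum_fiberwise (toD A)
  have h2 := hasSum_fintype (fun c : Disc A => ∑' w : ↥(toD A ⁻¹' {c}), dualTm p B y (z : ℂ) w)
  rw [h1.unique h2]
  refine Finset.sum_congr rfl fun c _ => ?_
  rw [tsum_fib hA, thetaChar_eq_tsum, ← tsum_mul_left]
  refine tsum_congr fun x => ?_
  exact dualTm_coset hA y c.out x z

theorem thetaChar_slash_S [Fact p.Prime] (hA : IsGoodLattice p A B) (hinv : ThetaInv p A B)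
    (y : Fin 4 → ℤ) :
    letI := discFintype hA
    thetaChar p A B y ∣[(2 : ℤ)] ModularGroup.S =
      (-(p : ℂ)⁻¹) • ∑ c : Disc A,
        (ZMod.stdAddChar (N := p) (bZ p B y c.out) : ℂ) • thetaChar p A B c.out := by
  let _ := discFintype hA
  have hp : (p : ℂ) ≠ 0 := by exact_mod_cast (Fact.out : p.Prime).ne_zero
  funext z
  have hz : (z : ℂ) ≠ 0 := UpperHalfPlane.ne_zero z
  rw [SL_slash_apply, ModularGroup.denom_S, hinv y z]
  have h1 := tsum_dualTm hA y z
  unfold dualTm at h1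
  rw [h1]
  simp only [Pi.smul_apply, Finset.sum_apply, smul_eq_mul]
  have hz2 : (z : ℂ) ^ (-(2 : ℤ)) = ((z : ℂ) ^ 2)⁻¹ := by
    rw [_root_.zpow_neg]
    norm_cast
  rw [hz2]
  field_simp

/-! ### the Weil system and the main theorem -/

/-- The Weil system of the theta series with characteristics of a good lattice. -/
def weilSystem [Fact p.Prime] (hA : IsGoodLattice p A B) (hinv : ThetaInv p A B) :
    @H722.WeilSystem p _ (Disc A) _ (discFintype hA) :=
  @H722.WeilSystem.mk p _ (Disc A) _ (discFintype hA) (quadData hA) (card_disc hA)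
    (fun h => thetaChar p A B h.out)
    (fun h => thetaChar_slash_T hA h.out)
    (fun h => by
      have := thetaChar_slash_S hA hinv h.out
      simpa [quadData, bD] using this)
    (by
      have h0 : thetaChar p A B (toD A 0).out = thetaChar p A B 0 := thetaChar_out hA 0
      show thetaChar p A B (0 : Disc A).out ≠ 0
      rw [← toD_zero, h0]
      exact thetaChar_zero_ne_zero hA)

lemma weilSystem_Θ_zero [Fact p.Prime] (hA : IsGoodLattice p A B) (hinv : ThetaInv p A B) :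
    letI := discFintype hA
    (weilSystem hA hinv).Θ 0 = thetaFun A := by
  show thetaChar p A B (0 : Disc A).out = thetaFun A
  rw [← toD_zero, thetaChar_out hA 0, thetaChar_zero']

/-- **WP TH (main)**, exact skeleton shape: the theta series of a good lattice is a weight `2`
modular form on `Γ₀(p)`. -/
theorem theta_mem_MF (p : ℕ) [Fact p.Prime] (A B : Matrix (Fin 4) (Fin 4) ℤ)
    (hA : IsGoodLattice p A B)
    (hinv : ∀ (y : Fin 4 → ℤ) (z : ℍ), thetaChar p A B y (ModularGroup.S • z) =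
      -(z : ℂ) ^ 2 / p * ∑' w : Fin 4 → ℤ,
        Complex.exp (Real.pi * Complex.I * z * ((qf B w : ℂ) / p) +
          2 * Real.pi * Complex.I * (((w ⬝ᵥ B.mulVec y : ℤ) : ℂ) / p))) :
    thetaFun A ∈ MF (Gamma0 p) 2 := by
  let _ := discFintype hA
  have hinv' : ThetaInv p A B := hinv
  rw [← weilSystem_Θ_zero hA hinv']
  refine ⟨mdiff_thetaChar hA _, fun γ hγ => (weilSystem hA hinv').slash_Gamma0 γ hγ,
    fun γ => (weilSystem hA hinv').isBoundedAtImInfty_slash
      (fun h => isBoundedAtImInfty_thetaChar hA h.out) γ⟩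

/-- The same with the bundled hypothesis `ThetaInv`. -/
theorem theta_mem_MF' (p : ℕ) [Fact p.Prime] (A B : Matrix (Fin 4) (Fin 4) ℤ)
    (hA : IsGoodLattice p A B) (hinv : ThetaInv p A B) : thetaFun A ∈ MF (Gamma0 p) 2 :=
  theta_mem_MF p A B hA hinv

end Fermat.Agent.S16.H307
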