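import Fermat.Agent.S16.H307.Disc
import Fermat.Agent.S16.H756.ThetaSum

/-!
# S16 / WP TH (helper307): analytic properties of the theta series with characteristic

For a good lattice pair `(A, B)` (`IsGoodLattice p A B`) and `y : ℤ⁴`:
summability, holomorphy and boundedness at `i∞` of `thetaChar p A B y`
(`Fermat.Agent.S16.Interface`), and `thetaChar p A B 0 = thetaFun A ≠ 0`.
-/

set_option autoImplicit false

noncomputable section

namespace Fermat.Agent.S16.H307

open Complex Real Matrix UpperHalfPlane ModularForm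
open scoped Manifold

variable {p : ℕ} {A B : Matrix (Fin 4) (Fin 4) ℤ}

/-- The real exponent `xᵀAx + 2 xᵀy + yᵀBy / p = (x + A⁻¹y)ᵀ A (x + A⁻¹y)`. -/
def cR (p : ℕ) (A B : Matrix (Fin 4) (Fin 4) ℤ) (y x : Fin 4 → ℤ) : ℝ :=
  (qf A x : ℝ) + 2 * ((x ⬝ᵥ y : ℤ) : ℝ) + (qf B y : ℝ) / p

/-- The general term of the theta series with characteristic. -/
def tm (p : ℕ) (A B : Matrix (Fin 4) (Fin 4) ℤ) (y x : Fin 4 → ℤ) (τ : ℂ) : ℂ :=
  cexp (π * Complex.I * τ * (cR p A B y x : ℂ))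

lemma thetaChar_eq_tsum (y : Fin 4 → ℤ) (z : ℍ) :
    thetaChar p A B y z = ∑' x : Fin 4 → ℤ, tm p A B y x (z : ℂ) := by
  unfold thetaChar tm cR
  refine tsum_congr fun x => ?_
  push_cast
  rfl

lemma cR_eq [Fact p.Prime] (hA : IsGoodLattice p A B) (y x : Fin 4 → ℤ) :
    cR p A B y x = ((qf A ((p : ℤ) • x + B *ᵥ y) : ℤ) : ℝ) / (p : ℝ) ^ 2 := by
  have hp : (p : ℝ) ≠ 0 := by exact_mod_cast (Fact.out : p.Prime).ne_zero
  rw [qf_A_shift hA]
  unfold cR
  push_cast
  field_simp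

lemma qf_A_eq (A : Matrix (Fin 4) (Fin 4) ℤ) (w : Fin 4 → ℤ) :
    ((qf A w : ℤ) : ℝ) = H756.qf (H756.mR A) (H756.vR w) := by
  rw [H756.qf_mR]
  rfl

lemma qf_A_nonneg (hA : IsGoodLattice p A B) (w : Fin 4 → ℤ) : (0 : ℝ) ≤ ((qf A w : ℤ) : ℝ) := by
  rw [qf_A_eq]
  exact H756.qf_nonneg_of_posDef hA.posDef _

lemma cR_nonneg [Fact p.Prime] (hA : IsGoodLattice p A B) (y x : Fin 4 → ℤ) :
    0 ≤ cR p A B y x := by
  rw [cR_eq hA]
  exact div_nonneg (qf_A_nonneg hA _) (sq_nonneg _)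

lemma norm_tm (y x : Fin 4 → ℤ) (τ : ℂ) :
    ‖tm p A B y x τ‖ = rexp (-(π * τ.im * cR p A B y x)) := by
  rw [tm, Complex.norm_exp]
  congr 1
  have : (π * Complex.I * τ * (cR p A B y x : ℂ) : ℂ)
      = ((π * cR p A B y x : ℝ) : ℂ) * (Complex.I * τ) := by
    push_cast; ring
  rw [this, Complex.re_ofReal_mul]
  simp
  ring

lemma shift_injective [Fact p.Prime] (y : Fin 4 → ℤ) :
    Function.Injective (fun x : Fin 4 → ℤ => (p : ℤ) • x + B *ᵥ y) := by
  have hp : (p : ℤ) ≠ 0 := by exact_mod_cast (Fact.out : p.Prime).ne_zero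
  intro x x' h
  exact smul_right_injective _ hp (add_right_cancel h)

/-- Summability of the majorant. -/
lemma summable_exp_cR [Fact p.Prime] (hA : IsGoodLattice p A B) (y : Fin 4 → ℤ) {t : ℝ}
    (ht : 0 < t) : Summable (fun x : Fin 4 → ℤ => rexp (-(π * t * cR p A B y x))) := by
  have hp : (0 : ℝ) < p := by exact_mod_cast (Fact.out : p.Prime).pos
  have hc : 0 < π * t / (p : ℝ) ^ 2 := by positivity
  have h1 := (H756.summable_exp_neg_qf (M := H756.mR A) hA.posDef hc).comp_injective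
    (shift_injective (p := p) (B := B) y)
  refine h1.congr fun x => ?_
  simp only [Function.comp_apply]
  rw [cR_eq hA, qf_A_eq]
  congr 1
  field_simp

lemma summable_norm_tm [Fact p.Prime] (hA : IsGoodLattice p A B) (y : Fin 4 → ℤ) {τ : ℂ}
    (hτ : 0 < τ.im) : Summable (fun x : Fin 4 → ℤ => ‖tm p A B y x τ‖) := by
  simp_rw [norm_tm]
  exact summable_exp_cR hA y hτ

lemma summable_tm [Fact p.Prime] (hA : IsGoodLattice p A B) (y : Fin 4 → ℤ) {τ : ℂ}
    (hτ : 0 < τ.im) : Summable (fun x : Fin 4 → ℤ => tm p A B y x τ) :=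
  (summable_norm_tm hA y hτ).of_norm

lemma hasSum_thetaChar [Fact p.Prime] (hA : IsGoodLattice p A B) (y : Fin 4 → ℤ) (z : ℍ) :
    HasSum (fun x : Fin 4 → ℤ => tm p A B y x (z : ℂ)) (thetaChar p A B y z) := by
  rw [thetaChar_eq_tsum]
  exact (summable_tm hA y z.im_pos).hasSum

/-! ### holomorphy -/

lemma differentiable_tm (y x : Fin 4 → ℤ) : Differentiable ℂ (tm p A B y x) := by
  unfold tm
  fun_prop

lemma differentiableOn_tsum_tm [Fact p.Prime] (hA : IsGoodLattice p A B) (y : Fin 4 → ℤ) :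
    DifferentiableOn ℂ (fun τ : ℂ => ∑' x : Fin 4 → ℤ, tm p A B y x τ) {τ | 0 < τ.im} := by
  intro τ₀ hτ₀
  have hτ₀' : 0 < τ₀.im := hτ₀
  have hopen : IsOpen {τ : ℂ | τ₀.im / 2 < τ.im} :=
    isOpen_lt continuous_const Complex.continuous_im
  have hmem : τ₀ ∈ {τ : ℂ | τ₀.im / 2 < τ.im} := by
    show τ₀.im / 2 < τ₀.im
    linarith
  have hdiff : DifferentiableOn ℂ (fun τ : ℂ => ∑' x : Fin 4 → ℤ, tm p A B y x τ)
      {τ : ℂ | τ₀.im / 2 < τ.im} := by
    refine differentiableOn_tsum_of_summable_norm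
      (u := fun x => rexp (-(π * (τ₀.im / 2) * cR p A B y x)))
      (summable_exp_cR hA y (by positivity)) (fun x => (differentiable_tm y x).differentiableOn)
      hopen ?_
    intro x τ hτ
    rw [norm_tm]
    apply Real.exp_le_exp.mpr
    have h1 : τ₀.im / 2 ≤ τ.im := le_of_lt hτ
    have h2 := cR_nonneg hA y x
    have h3 : π * (τ₀.im / 2) * cR p A B y x ≤ π * τ.im * cR p A B y x := by
      gcongr
    linarith
  exact ((hdiff τ₀ hmem).differentiableAt (hopen.mem_nhds hmem)).differentiableWithinAt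

theorem mdiff_thetaChar [Fact p.Prime] (hA : IsGoodLattice p A B) (y : Fin 4 → ℤ) :
    MDiff (thetaChar p A B y) := by
  rw [UpperHalfPlane.mdifferentiable_iff]
  refine (differentiableOn_tsum_tm hA y).congr ?_
  intro τ hτ
  simp only [Function.comp_apply]
  rw [thetaChar_eq_tsum, UpperHalfPlane.ofComplex_apply_of_im_pos hτ]

/-! ### boundedness at `i∞` -/

theorem isBoundedAtImInfty_thetaChar [Fact p.Prime] (hA : IsGoodLattice p A B)
    (y : Fin 4 → ℤ) : IsBoundedAtImInfty (thetaChar p A B y) := by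
  rw [UpperHalfPlane.isBoundedAtImInfty_iff]
  refine ⟨∑' x : Fin 4 → ℤ, rexp (-(π * 1 * cR p A B y x)), 1, fun z hz => ?_⟩
  rw [thetaChar_eq_tsum]
  have hs := summable_norm_tm hA y z.im_pos
  refine (norm_tsum_le_tsum_norm hs).trans ?_
  refine hs.tsum_le_tsum (fun x => ?_) (summable_exp_cR hA y one_pos)
  rw [norm_tm]
  apply Real.exp_le_exp.mpr
  have h2 := cR_nonneg hA y x
  have h3 : π * 1 * cR p A B y x ≤ π * (z : ℂ).im * cR p A B y x := by
    have : (1 : ℝ) ≤ (z : ℂ).im := hz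
    gcongr
  linarith

/-! ### `Θ₀ = θ_A ≠ 0` -/

lemma thetaChar_zero (z : ℍ) : thetaChar p A B 0 z = thetaFun A z := by
  unfold thetaChar thetaFun
  refine tsum_congr fun x => ?_
  have : qf B 0 = 0 := by simp [qf]
  simp [this]

lemma thetaChar_zero' : thetaChar p A B 0 = thetaFun A := funext thetaChar_zero

theorem thetaChar_zero_ne_zero [Fact p.Prime] (hA : IsGoodLattice p A B) :
    thetaChar p A B 0 ≠ 0 := by
  intro h
  have h1 : thetaChar p A B 0 UpperHalfPlane.I = 0 := by rw [h]; rfl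
  rw [thetaChar_eq_tsum] at h1
  have h2 : ∀ x : Fin 4 → ℤ, tm p A B 0 x ((UpperHalfPlane.I : ℍ) : ℂ)
      = ((rexp (-(π * cR p A B 0 x)) : ℝ) : ℂ) := by
    intro x
    unfold tm
    rw [UpperHalfPlane.coe_I]
    push_cast
    congr 1
    have : Complex.I * Complex.I = -1 := Complex.I_mul_I
    linear_combination (π * (cR p A B 0 x : ℂ)) * this
  simp_rw [h2] at h1
  rw [← Complex.ofReal_tsum] at h1
  have h3 : (∑' x : Fin 4 → ℤ, rexp (-(π * cR p A B 0 x))) = 0 := by exact_mod_cast h1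
  have hs : Summable (fun x : Fin 4 → ℤ => rexp (-(π * cR p A B 0 x))) := by
    have := summable_exp_cR hA 0 one_pos
    simpa using this
  have h4 : 0 < ∑' x : Fin 4 → ℤ, rexp (-(π * cR p A B 0 x)) :=
    hs.tsum_pos (fun x => (Real.exp_pos _).le) 0 (Real.exp_pos _)
  linarith

end Fermat.Agent.S16.H307
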